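/-
TW-FLAT, row 363 (FLAT-SSC-CORE-C): the "Arch trick".  A ring homomorphism `η : R₂ → P/(d)`,
`d = b·t₀` with `t₀` a non-unit, such that `η(b) = b·unit` and `η(d) = 0`, reflects divisibility
by `b`: if `η(x) ∈ b·P/(d)` then `x ∈ b·P`.
-/
import Mathlib
import Fermat.Agent.TW.Flat.Interfaces

set_option autoImplicit false

namespace Fermat.Agent.TW.Flat.SSC

open Fermat.Agent.S53 Fermat.Agent.TW Fermat.Agent.TW.Flat

local notation "Qb" => AlgebraicClosure ℚ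

theorem mem_of_eta_mem (hArch : Loc.Arch) (p : ℕ) [Fact p.Prime] (P : ValuationSubring Qb)
    (hP : P.LiesOverPrime p) (R₂ : Subring Qb) (h2P : ∀ x ∈ R₂, x ∈ P)
    (hdiv : ∀ x ∈ R₂, ∀ y ∈ R₂, x / y ∈ P → x / y ∈ R₂) (d b t₀ w : P) (hb : (b : Qb) ∈ R₂)
    (hd : (d : Qb) ∈ R₂) (hd0 : d ≠ 0) (hdb : d = b * t₀) (ht₀ : (t₀ : Qb) ∈ P.nonunits)
    (hw : IsUnit w) (η : R₂ →+* P ⧸ Ideal.span {d})
    (hηb : η ⟨b, hb⟩ = Ideal.Quotient.mk _ (b * w)) (hηd : η ⟨d, hd⟩ = 0) (x : R₂)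
    (hx : ∃ t : P, η x = Ideal.Quotient.mk _ (b * t)) : ∃ t ∈ P, (x : Qb) = b * t := by
  obtain ⟨t, ht⟩ := hx
  have hb0 : b ≠ 0 := by
    rintro rfl
    exact hd0 (by rw [hdb, zero_mul])
  have hb0' : (b : Qb) ≠ 0 := fun h => hb0 (Subtype.ext h)
  by_cases hx0 : (x : Qb) = 0
  · exact ⟨0, P.zero_mem, by rw [hx0, mul_zero]⟩
  by_cases hxb : (x : Qb) / b ∈ P
  · exact ⟨_, hxb, by field_simp⟩
  exfalso
  -- `y = b / x` is a non-unit of `P` lying in `R₂`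
  have hyn : (b : Qb) / x ∈ P.nonunits := by
    rw [ValuationSubring.mem_nonunits_iff]
    rw [← ValuationSubring.valuation_le_one_iff, not_le] at hxb
    have h : (b : Qb) / x = ((x : Qb) / b)⁻¹ := by rw [inv_div]
    rw [h, map_inv₀]
    exact inv_lt_one_of_one_lt₀ hxb
  have hyP : (b : Qb) / x ∈ P := by
    rw [← ValuationSubring.valuation_le_one_iff]
    exact ((ValuationSubring.mem_nonunits_iff _).1 hyn).le
  have hyR : (b : Qb) / x ∈ R₂ := hdiv _ hb _ x.2 hyP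
  have hmul : (⟨(b : Qb) / x, hyR⟩ : R₂) * x = ⟨b, hb⟩ :=
    Subtype.ext (div_mul_cancel₀ _ hx0)
  obtain ⟨y₀, hy₀⟩ := Ideal.Quotient.mk_surjective (η ⟨(b : Qb) / x, hyR⟩)
  have h1 : Ideal.Quotient.mk (Ideal.span {d}) (y₀ * (b * t)) = Ideal.Quotient.mk _ (b * w) := by
    rw [map_mul, hy₀, ← ht, ← map_mul, hmul, hηb]
  rw [Ideal.Quotient.eq, Ideal.mem_span_singleton] at h1
  obtain ⟨c, hc⟩ := h1
  have h2 : y₀ * t - w = t₀ * c := by
    apply mul_left_cancel₀ hb0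
    rw [hdb] at hc
    linear_combination hc
  have ht₀n : ¬ IsUnit t₀ := fun hu => by
    have h := (P.valuation_eq_one_iff t₀).1 hu
    rw [ValuationSubring.mem_nonunits_iff] at ht₀
    exact ht₀.ne h
  have hy₀u : IsUnit y₀ := by
    have h3 : IsUnit (y₀ * t) := by
      have h : y₀ * t = w + t₀ * c := by linear_combination h2
      rw [h]
      by_contra hcon
      have hmem : w + t₀ * c ∈ IsLocalRing.maximalIdeal P := hcon
      have hmem2 : t₀ * c ∈ IsLocalRing.maximalIdeal P :=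
        Ideal.mul_mem_right _ _ ((IsLocalRing.mem_maximalIdeal _).2 ht₀n)
      exact ((IsLocalRing.mem_maximalIdeal _).1 ((Ideal.add_mem_iff_left _ hmem2).1 hmem)) hw
    exact isUnit_of_mul_isUnit_left h3
  -- `Arch`: a power of `y` is divisible by `d`
  have hd0' : (d : Qb) ≠ 0 := fun h => hd0 (Subtype.ext h)
  obtain ⟨N, hN⟩ := hArch p P hP ((b : Qb) / x) hyn (d : Qb) hd0'
  have hqR : ((b : Qb) / x) ^ N / d ∈ R₂ := hdiv _ (pow_mem hyR N) _ hd hN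
  have hpow : (⟨(b : Qb) / x, hyR⟩ : R₂) ^ N = ⟨d, hd⟩ * ⟨_, hqR⟩ :=
    Subtype.ext (by
      show ((b : Qb) / x) ^ N = (d : Qb) * (((b : Qb) / x) ^ N / d)
      rw [mul_div_cancel₀ _ hd0'])
  have h4 : Ideal.Quotient.mk (Ideal.span {d}) (y₀ ^ N) = 0 := by
    rw [map_pow, hy₀, ← map_pow, hpow, map_mul, hηd, zero_mul]
  rw [Ideal.Quotient.eq_zero_iff_mem, Ideal.mem_span_singleton] at h4
  have hdu : IsUnit d := isUnit_of_dvd_unit h4 (hy₀u.pow N)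
  rw [hdb] at hdu
  exact ht₀n (isUnit_of_mul_isUnit_right hdu)

end Fermat.Agent.TW.Flat.SSC
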