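/-
TW-FLAT, row FLAT-SSC-CORE-A (361), sub-brick of `TwistCore` (339):

* `finite_of_isPOrder` : a `P`-order on `V → Qb` forces `V` to be finite (the indicator
  functions are linearly independent in a finite-dimensional space);
* elementary facts about the action `liftAct rb c σ` of the lift attached to `c` on `k[ε]²`:
  it is the identity when `rb σ = 1` and `c σ = 0`, it detects `c σ = 0` when `rb σ = 1`,
  it is additive, and `k[ε]²` is killed by `p` when `p = 0` in `k`.
-/
import Mathlib
import Fermat.Agent.TW.Flat.SSC.Basic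

set_option autoImplicit false

namespace Fermat.Agent.TW.Flat.SSC

open Fermat.Agent.S53 Fermat.Agent.TW Fermat.Agent.Lib.FinFlat Fermat.Agent.TW.Flat

local notation "Qb" => AlgebraicClosure ℚ

/-- A `P`-order on the functions on `V` has a finite basis over `Qb`, so `V` is finite. -/
theorem finite_of_isPOrder {P : ValuationSubring Qb} {Γ : Subgroup GQ} {V : Type}
    [AddCommGroup V] {act : GQ → V → V} {B : Subalgebra P (V → Qb)}
    (hB : IsPOrder P Γ act B) : Finite V := by
  classical
  obtain ⟨ι, hι, b, -, -⟩ := hB.exists_basis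
  have : Module.Finite Qb (V → Qb) := Module.Finite.of_basis b
  exact (Pi.linearIndependent_single_one V Qb).finite_of_isNoetherian

variable {k : Type} [Field k]

/-- The lift matrix at `σ` with `rb σ = 1`, `c σ = 0` is the identity. -/
theorem liftMat_of_eq_one {rb : GQ →* Mat2 k} {c : GQ → Mat2 k} {σ : GQ} (hrb : rb σ = 1)
    (hc : c σ = 0) : liftMat rb c σ = 1 := by
  refine Matrix.ext fun i j => ?_
  rw [liftMat_apply, hrb, hc, zero_mul, Matrix.zero_apply, TrivSqZeroExt.inr_zero, add_zero,
    Matrix.one_apply, Matrix.one_apply]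
  split_ifs
  · rfl
  · rfl

/-- If `rb σ = 1` and `c σ = 0` then `σ` acts trivially through the lift. -/
theorem liftAct_of_eq_one {rb : GQ →* Mat2 k} {c : GQ → Mat2 k} {σ : GQ} (hrb : rb σ = 1)
    (hc : c σ = 0) (v : Fin 2 → DualNumber k) : liftAct rb c σ v = v := by
  unfold liftAct
  rw [liftMat_of_eq_one hrb hc, Matrix.one_mulVec]

/-- If `rb σ = 1` and `σ` acts trivially through the lift, then `c σ = 0`. -/
theorem c_eq_zero_of_liftAct {rb : GQ →* Mat2 k} {c : GQ → Mat2 k} {σ : GQ} (hrb : rb σ = 1)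
    (h : ∀ v : Fin 2 → DualNumber k, liftAct rb c σ v = v) : c σ = 0 := by
  classical
  refine Matrix.ext fun i j => ?_
  have h1 := congrFun (h (Pi.single j 1)) i
  unfold liftAct at h1
  rw [Matrix.mulVec_single_one, Matrix.col_apply, liftMat_apply, hrb, mul_one] at h1
  have h2 := congrArg TrivSqZeroExt.snd h1
  rw [TrivSqZeroExt.snd_add, TrivSqZeroExt.snd_inl, TrivSqZeroExt.snd_inr, zero_add] at h2
  rw [h2, Matrix.zero_apply]
  by_cases hij : i = j
  · subst hij
    rw [Pi.single_eq_same]
    rfl
  · rw [Pi.single_eq_of_ne hij]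
    rfl

/-- The action through the lift is additive. -/
theorem liftAct_add (rb : GQ →* Mat2 k) (c : GQ → Mat2 k) (σ : GQ)
    (v w : Fin 2 → DualNumber k) :
    liftAct rb c σ (v + w) = liftAct rb c σ v + liftAct rb c σ w := by
  unfold liftAct
  exact Matrix.mulVec_add _ _ _

/-- `p = 0` in `k[ε]` when `p = 0` in `k`. -/
theorem natCast_dual_eq_zero {p : ℕ} (hp : (p : k) = 0) : (p : DualNumber k) = 0 := by
  have h := congrArg (TrivSqZeroExt.inl : k → DualNumber k) hp
  rw [TrivSqZeroExt.inl_natCast, TrivSqZeroExt.inl_zero] at h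
  exact h

/-- `k[ε]²` is killed by `p` when `p = 0` in `k`. -/
theorem nsmul_dual_eq_zero {p : ℕ} (hp : (p : k) = 0) (v : Fin 2 → DualNumber k) :
    p • v = 0 := by
  funext i
  rw [Pi.smul_apply, nsmul_eq_mul, natCast_dual_eq_zero hp, zero_mul, Pi.zero_apply]

end Fermat.Agent.TW.Flat.SSC
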