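/-
TW-FLAT, supersingular containment, sub-brick CORE-B of `TwistCore` (task row 362).

Root count: if the `n` conjugates `τ_i Π'` (coset representatives of `H` in `G_F`) of a root `Π'`
of a `G_F`-stable polynomial `G'` of degree `n` are governed by `Stab(Π') ≤ H`, then they exhaust
the roots of `G'`, and consequently `H` fixes `Π'`.
-/
import Mathlib

set_option autoImplicit false

namespace Fermat.Agent.TW.Flat.SSC

local notation "Qb" => AlgebraicClosure ℚ
local notation "GQ" => (AlgebraicClosure ℚ ≃ₐ[ℚ] AlgebraicClosure ℚ)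

/-- An automorphism fixing the coefficients of a polynomial maps roots to roots. -/
theorem eval_apply_eq_zero_of_coeff_fixed (G' : Polynomial Qb) (σ : GQ)
    (hcoef : ∀ i, σ (G'.coeff i) = G'.coeff i) (r : Qb) (hr : G'.eval r = 0) :
    G'.eval (σ r) = 0 := by
  have hmap : G'.map (σ : Qb →+* Qb) = G' := by
    ext i
    rw [Polynomial.coeff_map]
    exact hcoef i
  have h2 : (G'.map (σ : Qb →+* Qb)).eval ((σ : Qb →+* Qb) r) = (σ : Qb →+* Qb) (G'.eval r) := by
    rw [Polynomial.eval_map, Polynomial.eval₂_at_apply]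
  rw [hmap, hr, map_zero] at h2
  exact h2

/-- **Root count.**  `G'` of degree `n` with `G_F`-fixed coefficients, `Π'` a root, `τ_i` a system
of representatives of `G_F / H`, and `Stab_{G_F}(Π') ≤ H`: then `H` fixes `Π'`. -/
theorem fix_of_root_count (G' : Polynomial Qb) (n : ℕ) (hG0 : G' ≠ 0) (hdeg : G'.natDegree = n)
    (Pi' : Qb) (hroot : G'.eval Pi' = 0) (GF H : Subgroup GQ) (hHG : H ≤ GF) (τ : Fin n → GQ)
    (hτ : ∀ i, τ i ∈ GF) (huniq : ∀ σ ∈ GF, ∃! i, (τ i)⁻¹ * σ ∈ H)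
    (hcoef : ∀ σ ∈ GF, ∀ i, σ (G'.coeff i) = G'.coeff i)
    (hstab : ∀ σ ∈ GF, σ Pi' = Pi' → σ ∈ H) : ∀ σ ∈ H, σ Pi' = Pi' := by
  classical
  -- every element of `G_F` maps `Π'` to a root
  have hrt : ∀ σ ∈ GF, σ Pi' ∈ G'.roots.toFinset := by
    intro σ hσ
    rw [Multiset.mem_toFinset, Polynomial.mem_roots hG0]
    exact eval_apply_eq_zero_of_coeff_fixed G' σ (hcoef σ hσ) Pi' hroot
  -- if `σ Π' = τ_j Π'` then `τ_j⁻¹ σ ∈ H`
  have hmemH : ∀ σ ∈ GF, ∀ j, σ Pi' = τ j Pi' → (τ j)⁻¹ * σ ∈ H := by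
    intro σ hσ j h
    refine hstab _ (GF.mul_mem (GF.inv_mem (hτ j)) hσ) ?_
    rw [AlgEquiv.mul_apply, h]
    exact (τ j).symm_apply_apply Pi'
  -- the conjugates are pairwise distinct
  have hinj : Function.Injective (fun i => τ i Pi') := by
    intro i j hij
    have h1 : (τ j)⁻¹ * τ i ∈ H := hmemH (τ i) (hτ i) j hij
    have h2 : (τ i)⁻¹ * τ i ∈ H := by rw [inv_mul_cancel]; exact H.one_mem
    obtain ⟨l, _, hl⟩ := huniq (τ i) (hτ i)
    rw [hl i h2, hl j h1]
  -- hence they exhaust the roots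
  have hsub : (Finset.univ.image (fun i => τ i Pi')) ⊆ G'.roots.toFinset := by
    intro x hx
    rw [Finset.mem_image] at hx
    obtain ⟨i, _, rfl⟩ := hx
    exact hrt (τ i) (hτ i)
  have hcard : G'.roots.toFinset.card ≤ (Finset.univ.image (fun i => τ i Pi')).card := by
    rw [Finset.card_image_of_injective _ hinj, Finset.card_univ, Fintype.card_fin]
    calc G'.roots.toFinset.card ≤ Multiset.card G'.roots := Multiset.toFinset_card_le _
      _ ≤ G'.natDegree := Polynomial.card_roots' G'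
      _ = n := hdeg
  have heq : Finset.univ.image (fun i => τ i Pi') = G'.roots.toFinset :=
    Finset.eq_of_subset_of_card_le hsub hcard
  have hex : ∀ σ ∈ GF, ∃ j, σ Pi' = τ j Pi' := by
    intro σ hσ
    have h := hrt σ hσ
    rw [← heq, Finset.mem_image] at h
    obtain ⟨j, _, hj⟩ := h
    exact ⟨j, hj.symm⟩
  intro σ hσ
  obtain ⟨j, hj⟩ := hex σ (hHG hσ)
  obtain ⟨j', hj'⟩ := hex 1 GF.one_mem
  have h1 : (τ j)⁻¹ * 1 ∈ H := by
    have h := hmemH σ (hHG hσ) j hj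
    have h' : (τ j)⁻¹ * σ * σ⁻¹ ∈ H := H.mul_mem h (H.inv_mem hσ)
    rwa [mul_assoc, mul_inv_cancel] at h'
  have h2 : (τ j')⁻¹ * 1 ∈ H := hmemH 1 GF.one_mem j' hj'
  obtain ⟨l, _, hl⟩ := huniq 1 GF.one_mem
  have hjj : j = j' := by rw [hl j h1, hl j' h2]
  rw [hj, hjj, ← hj']
  rfl

end Fermat.Agent.TW.Flat.SSC
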